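import Mathlib

/-!
# Krull's intersection theorem after a blow up

`R` is a noetherian domain, `𝔪` an ideal containing the prime number `p`, with `p^k ∉ 𝔪^(k+1)` for
all `k`. If `x ∈ R` is "in `𝔪^(t+j) / p^t`" for all `j`, up to integers prime to `p`, then `x = 0`:
the ring `T = R[𝔪 / p]` is noetherian and `p` is not a unit of `T`.
-/

set_option autoImplicit false
set_option linter.unusedSectionVars false

namespace Fermat.Agent.Cor.SML

variable {R K : Type*} [CommRing R] [IsDomain R] [IsNoetherianRing R] [Field K] [CharZero K]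
  [Algebra R K] {p : ℕ} {𝔪 : Ideal R} {S : Finset R}

/-- `R[𝔪 / p]`, `𝔪` generated by `S`. -/
def blow (K : Type*) [Field K] [Algebra R K] (p : ℕ) (S : Finset R) : Subalgebra R K :=
  Algebra.adjoin R ((fun a => algebraMap R K a / (p : K)) '' (S : Set R))

theorem isNoetherianRing_blow : IsNoetherianRing (blow K p S) := by
  classical
  refine isNoetherianRing_of_fg ?_
  refine ⟨S.image fun a => algebraMap R K a / (p : K), ?_⟩
  rw [Finset.coe_image]
  rfl

theorem div_mem (hS : Ideal.span (S : Set R) = 𝔪) {a : R} (ha : a ∈ 𝔪) :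
    algebraMap R K a / (p : K) ∈ blow K p S := by
  rw [← hS] at ha
  refine Submodule.span_induction (p := fun a _ => algebraMap R K a / (p : K) ∈ blow K p S)
    ?_ ?_ ?_ ?_ ha
  · intro a ha
    exact Algebra.subset_adjoin ⟨a, ha, rfl⟩
  · rw [map_zero, zero_div]
    exact zero_mem _
  · intro a b _ _ ha hb
    rw [map_add, add_div]
    exact add_mem ha hb
  · intro r a _ ha
    rw [smul_eq_mul, map_mul, mul_div_assoc]
    exact mul_mem (Subalgebra.algebraMap_mem _ r) ha

theorem div_pow_mem (hS : Ideal.span (S : Set R) = 𝔪) (k : ℕ) {a : R} (ha : a ∈ 𝔪 ^ k) :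
    algebraMap R K a / (p : K) ^ k ∈ blow K p S := by
  induction k generalizing a with
  | zero =>
    rw [pow_zero, div_one]
    exact Subalgebra.algebraMap_mem _ a
  | succ k ih =>
    rw [pow_succ] at ha
    refine Submodule.mul_induction_on (C := fun a => algebraMap R K a / (p : K) ^ (k + 1) ∈
      blow K p S) ha ?_ ?_
    · intro a ha b hb
      rw [map_mul, pow_succ, mul_div_mul_comm]
      exact mul_mem (ih ha) (div_mem hS hb)
    · intro a b ha hb
      rw [map_add, add_div]
      exact add_mem ha hb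

theorem exists_pow_mul_eq (hp : (p : K) ≠ 0) (hpm : (p : R) ∈ 𝔪)
    (hS : Ideal.span (S : Set R) = 𝔪) {y : K} (hy : y ∈ blow K p S) :
    ∃ k, ∃ a ∈ 𝔪 ^ k, (p : K) ^ k * y = algebraMap R K a := by
  refine Algebra.adjoin_induction (p := fun y _ => ∃ k, ∃ a ∈ 𝔪 ^ k,
    (p : K) ^ k * y = algebraMap R K a) ?_ ?_ ?_ ?_ hy
  · rintro _ ⟨a, ha, rfl⟩
    refine ⟨1, a, ?_, ?_⟩
    · rw [pow_one, ← hS]
      exact Ideal.subset_span ha
    · rw [pow_one]
      field_simp
  · intro r
    exact ⟨0, r, by simp, by simp⟩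
  · rintro y z _ _ ⟨k, a, ha, h1⟩ ⟨l, b, hb, h2⟩
    refine ⟨k + l, (p : R) ^ l * a + (p : R) ^ k * b, ?_, ?_⟩
    · refine add_mem ?_ ?_
      · rw [add_comm, pow_add]
        exact Ideal.mul_mem_mul (Ideal.pow_mem_pow hpm l) ha
      · rw [pow_add]
        exact Ideal.mul_mem_mul (Ideal.pow_mem_pow hpm k) hb
    · rw [map_add, map_mul, map_mul, ← h1, ← h2, map_pow, map_pow, map_natCast]
      ring
  · rintro y z _ _ ⟨k, a, ha, h1⟩ ⟨l, b, hb, h2⟩
    refine ⟨k + l, a * b, ?_, ?_⟩
    · rw [pow_add]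
      exact Ideal.mul_mem_mul ha hb
    · rw [map_mul, ← h1, ← h2]
      ring

/-- **The intersection.** -/
theorem eq_zero_of_forall (K : Type*) [Field K] [CharZero K] [Algebra R K]
    (hinj : Function.Injective (algebraMap R K)) (hp : p ≠ 0) (hpm : (p : R) ∈ 𝔪)
    (H : ∀ k : ℕ, (p : R) ^ k ∉ 𝔪 ^ (k + 1)) {x : R}
    (h : ∀ j : ℕ, ∃ (U : ℤ) (t : ℕ), IsCoprime U (p : ℤ) ∧
      (U : R) * (p : R) ^ t * x ∈ 𝔪 ^ (t + j)) : x = 0 := by
  obtain ⟨S, hS⟩ : ∃ S : Finset R, Ideal.span (S : Set R) = 𝔪 := (isNoetherian_def.mp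
    (inferInstance : IsNoetherian R R)) 𝔪
  have hpK : (p : K) ≠ 0 := by exact_mod_cast hp
  have hN : IsNoetherianRing (blow K p S) := isNoetherianRing_blow
  set I : Ideal (blow K p S) := Ideal.span {((p : ℕ) : blow K p S)} with hI
  have hne : I ≠ ⊤ := by
    intro htop
    have h1 : (1 : blow K p S) ∈ I := by rw [htop]; trivial
    rw [hI, Ideal.mem_span_singleton'] at h1
    obtain ⟨y, hy⟩ := h1
    have hy' : (y : K) * (p : K) = 1 := by
      have := congrArg (Subtype.val : blow K p S → K) hy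
      simpa using this
    obtain ⟨k, a, ha, hk⟩ := exists_pow_mul_eq hpK hpm hS y.2
    rcases k with _ | k
    · rw [pow_zero, one_mul] at hk
      have h2 : a * (p : R) = 1 := by
        apply hinj
        rw [map_mul, map_natCast, ← hk, hy', map_one]
      apply H 0
      rw [pow_zero, zero_add, pow_one, ← h2]
      exact Ideal.mul_mem_left _ _ hpm
    · have h2 : (p : R) ^ k = a := by
        apply hinj
        rw [← hk, map_pow, map_natCast, pow_succ, mul_assoc, mul_comm (p : K) (y : K), hy', mul_one]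
      exact H k (h2 ▸ ha)
  have hbot : ⨅ i : ℕ, I ^ i = ⊥ := Ideal.iInf_pow_eq_bot_of_isDomain I hne
  have hx : algebraMap R (blow K p S) x ∈ (⨅ i : ℕ, I ^ i : Ideal (blow K p S)) := by
    rw [Ideal.mem_iInf]
    intro j
    obtain ⟨U, t, ⟨α, β, hαβ⟩, hU⟩ := h j
    have hy := div_pow_mem (K := K) (p := p) hS _ hU
    set y : blow K p S := ⟨_, hy⟩ with hyd
    have hpj : ((p : ℕ) : blow K p S) ^ j ∈ I ^ j :=
      Ideal.pow_mem_pow (Ideal.mem_span_singleton_self _) j
    have h1 : (U : blow K p S) * algebraMap R (blow K p S) x = ((p : ℕ) : blow K p S) ^ j * y := by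
      apply Subtype.ext
      change (U : K) * algebraMap R K x = (p : K) ^ j * (algebraMap R K _ / (p : K) ^ (t + j))
      rw [map_mul, map_mul, map_pow, map_natCast, map_intCast, pow_add]
      field_simp
    have h2 : ((U : ℤ) : blow K p S) * algebraMap R (blow K p S) x ∈ I ^ j := by
      rw [h1]
      exact Ideal.mul_mem_right _ _ hpj
    have hcop : IsCoprime U ((p : ℤ) ^ j) := (show IsCoprime U (p : ℤ) from ⟨α, β, hαβ⟩).pow_right
    obtain ⟨α', β', hαβ'⟩ := hcop
    have h3 : algebraMap R (blow K p S) x = (α' : blow K p S) *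
        ((U : blow K p S) * algebraMap R (blow K p S) x) +
        ((p : ℕ) : blow K p S) ^ j * ((β' : blow K p S) * algebraMap R (blow K p S) x) := by
      have h4 : ((α' * U + β' * (p : ℤ) ^ j : ℤ) : blow K p S) = 1 := by rw [hαβ', Int.cast_one]
      push_cast at h4
      linear_combination (-(algebraMap R (blow K p S) x)) * h4
    rw [h3]
    exact add_mem (Ideal.mul_mem_left _ _ h2) (Ideal.mul_mem_right _ _ hpj)
  rw [hbot, Submodule.mem_bot] at hx
  apply hinj
  have := congrArg (Subtype.val : blow K p S → K) hx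
  simpa using this

end Fermat.Agent.Cor.SML
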