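import Mathlib

/-!
# A point of a finitely generated domain over a finite field, with an unramified lift

For every finite set `G` of elements of a field of characteristic zero there are a prime number
`p > 2` and an ideal `𝔪` of `ℤ[G]` with `p ∈ 𝔪`, `ℤ[G] / 𝔪` finite and `p^k ∉ 𝔪^(k+1)` for all `k`:
`𝔪` is the preimage of a prime ideal of a number field, unramified over `p`.
-/

set_option autoImplicit false

universe u

open NumberField IsDedekindDomain

namespace Fermat.Agent.Cor.SML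

/-- A place of a number field, not over `2`, unramified over `ℚ`, with given integral elements. -/
theorem exists_place (L : Type*) [Field L] [NumberField L] (Y : Finset L) :
    ∃ (p : ℕ) (v : HeightOneSpectrum (𝓞 L)), p.Prime ∧ 2 < p ∧ (p : 𝓞 L) ∈ v.asIdeal ∧
      (p : 𝓞 L) ∉ v.asIdeal ^ 2 ∧ ∀ y ∈ Y, v.valuation L y ≤ 1 := by
  classical
  -- a place over every prime number
  have hex : ∀ p : Nat.Primes, ∃ v : HeightOneSpectrum (𝓞 L), ((p : ℕ) : 𝓞 L) ∈ v.asIdeal := by
    intro p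
    have h1 : Ideal.span {((p : ℕ) : 𝓞 L)} ≠ ⊤ := by
      intro h
      rw [Ideal.span_singleton_eq_top] at h
      have h3 : IsUnit (Algebra.norm ℤ (((p : ℕ) : ℤ) • (1 : 𝓞 L))) := by
        rw [zsmul_one, Int.cast_natCast]
        exact h.map (Algebra.norm ℤ)
      rw [zsmul_one, show (((p : ℕ) : ℤ) : 𝓞 L) = algebraMap ℤ (𝓞 L) (p : ℕ) from rfl,
        Algebra.norm_algebraMap] at h3
      have h4 : 0 < Module.finrank ℤ (𝓞 L) := Module.finrank_pos
      have h5 := (isUnit_pow_iff h4.ne').mp h3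
      rw [Int.isUnit_iff_natAbs_eq, Int.natAbs_natCast] at h5
      exact p.2.ne_one h5
    obtain ⟨M, hM, hle⟩ := Ideal.exists_le_maximal _ h1
    have h6 : ((p : ℕ) : 𝓞 L) ∈ M := hle (Ideal.mem_span_singleton_self _)
    refine ⟨⟨M, hM.isPrime, ?_⟩, h6⟩
    rintro rfl
    rw [Ideal.mem_bot] at h6
    exact p.2.ne_zero (by exact_mod_cast h6)
  choose F hF using hex
  have hFinj : Function.Injective F := by
    intro p q h
    by_contra hne
    have h1 : IsCoprime ((p : ℕ) : ℤ) ((q : ℕ) : ℤ) := by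
      rw [Nat.isCoprime_iff_coprime]
      exact (Nat.coprime_primes p.2 q.2).mpr fun h => hne (Subtype.ext h)
    obtain ⟨a, b, hab⟩ := h1
    apply (F p).isPrime.ne_top
    rw [Ideal.eq_top_iff_one]
    have h2 : (1 : 𝓞 L) = (a : 𝓞 L) * ((p : ℕ) : 𝓞 L) + (b : 𝓞 L) * ((q : ℕ) : 𝓞 L) := by
      have := congrArg (Int.cast : ℤ → 𝓞 L) hab
      push_cast at this
      exact this.symm
    rw [h2]
    exact add_mem (Ideal.mul_mem_left _ _ (hF p)) (Ideal.mul_mem_left _ _ (h ▸ hF q))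
  -- the bad places
  have hD : differentIdeal ℤ (𝓞 L) ≠ 0 := differentIdeal_ne_bot
  have hbad : ({v : HeightOneSpectrum (𝓞 L) | v.asIdeal ∣ differentIdeal ℤ (𝓞 L)} ∪
      ⋃ y ∈ Y, HeightOneSpectrum.Support (𝓞 L) y).Finite :=
    (Ideal.finite_factors hD).union
      (Y.finite_toSet.biUnion fun y _ => HeightOneSpectrum.Support.finite (𝓞 L) y)
  have hfin : (F ⁻¹' ({v : HeightOneSpectrum (𝓞 L) | v.asIdeal ∣ differentIdeal ℤ (𝓞 L)} ∪
      ⋃ y ∈ Y, HeightOneSpectrum.Support (𝓞 L) y) ∪ {p : Nat.Primes | (p : ℕ) ≤ 2}).Finite := by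
    refine (hbad.preimage hFinj.injOn).union ?_
    exact ((Set.finite_Iic 2).preimage (Subtype.val_injective.injOn)).subset fun p hp => hp
  obtain ⟨p, hp⟩ := hfin.exists_notMem
  rw [Set.mem_union, not_or] at hp
  obtain ⟨hp1, hp2⟩ := hp
  rw [Set.mem_preimage, Set.mem_union, not_or] at hp1
  refine ⟨p, F p, p.2, not_le.mp hp2, hF p, fun h => hp1.1 ?_, fun y hy => ?_⟩
  · have h1 : (F p).asIdeal ^ 2 ∣ (Ideal.span {((p : ℕ) : ℤ)}).map (algebraMap ℤ (𝓞 L)) := by
      rw [Ideal.map_span, Set.image_singleton, Ideal.dvd_span_singleton]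
      simpa using h
    have hmax : (Ideal.span {((p : ℕ) : ℤ)}).IsMaximal :=
      PrincipalIdealRing.isMaximal_of_irreducible (Nat.prime_iff_prime_int.mp p.2).irreducible
    have h2 := pow_sub_one_dvd_differentIdeal ℤ (F p).asIdeal 2 (by
      rw [Ne, Ideal.span_singleton_eq_bot]
      exact_mod_cast p.2.ne_zero) h1
    simpa using h2
  · by_contra h
    exact hp1.2 (Set.mem_biUnion hy (not_le.mp h))

open WithZero in
theorem le_exp_neg_one {x : ℤᵐ⁰} (h : x < 1) : x ≤ exp (-1 : ℤ) := by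
  by_cases h0 : x = 0
  · rw [h0]
    exact zero_le
  · rw [← exp_log h0] at h ⊢
    rw [← exp_zero, exp_lt_exp] at h
    rw [exp_le_exp]
    omega

open WithZero in
/-- The preimage of a prime ideal of a number field which is unramified over `p`. -/
theorem exists_ideal {R L : Type*} [CommRing R] [Field L] [NumberField L] (ψ : R →+* L) {p : ℕ}
    {v : HeightOneSpectrum (𝓞 L)} (hp : (p : 𝓞 L) ∈ v.asIdeal) (hp2 : (p : 𝓞 L) ∉ v.asIdeal ^ 2)
    (hψ : ∀ x, v.valuation L (ψ x) ≤ 1) :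
    ∃ 𝔪 : Ideal R, (p : R) ∈ 𝔪 ∧ Finite (R ⧸ 𝔪) ∧ ∀ k : ℕ, (p : R) ^ k ∉ 𝔪 ^ (k + 1) := by
  classical
  let 𝔪 : Ideal R :=
    { carrier := {x | v.valuation L (ψ x) < 1}
      add_mem' := fun {a b} ha hb => by
        change v.valuation L (ψ (a + b)) < 1
        rw [map_add]
        exact lt_of_le_of_lt (Valuation.map_add _ _ _) (max_lt ha hb)
      zero_mem' := by
        change v.valuation L (ψ 0) < 1
        rw [map_zero, map_zero]
        exact zero_lt_one
      smul_mem' := fun c x hx => by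
        change v.valuation L (ψ (c * x)) < 1
        rw [map_mul, map_mul]
        exact lt_of_le_of_lt (mul_le_mul' (hψ c) le_rfl) (by rwa [one_mul]) }
  have hmem : ∀ x : R, x ∈ 𝔪 ↔ v.valuation L (ψ x) < 1 := fun x => Iff.rfl
  have hvp : v.valuation L (p : L) = v.intValuation (p : 𝓞 L) := by
    rw [← HeightOneSpectrum.valuation_of_algebraMap (K := L) v (p : 𝓞 L)]
    simp
  refine ⟨𝔪, ?_, ?_, fun k hk => ?_⟩
  · rw [hmem, map_natCast, hvp, HeightOneSpectrum.intValuation_lt_one_iff_mem]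
    exact hp
  · have happ : ∀ x : R, ∃ a : 𝓞 L, v.valuation L (algebraMap (𝓞 L) L a - ψ x) < 1 := fun x => by
      obtain ⟨a, ha⟩ := v.exists_valuation_sub_lt_of_integer (hψ x) 1
      exact ⟨a, by simpa using ha⟩
    choose a ha using happ
    have hfin : Finite (𝓞 L ⧸ v.asIdeal) := Ideal.finiteQuotientOfFreeOfNeBot _ v.ne_bot
    refine Finite.of_injective (fun q : R ⧸ 𝔪 => Ideal.Quotient.mk v.asIdeal (a q.out)) ?_
    intro q r hqr
    rw [Ideal.Quotient.mk_eq_mk_iff_sub_mem, ← v.valuation_lt_one_iff_mem (K := L)] at hqr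
    rw [← Quotient.out_eq' q, ← Quotient.out_eq' r]
    change Ideal.Quotient.mk 𝔪 q.out = Ideal.Quotient.mk 𝔪 r.out
    rw [Ideal.Quotient.mk_eq_mk_iff_sub_mem, hmem, map_sub]
    have h1 : ψ q.out - ψ r.out = (algebraMap (𝓞 L) L (a q.out - a r.out) -
        (algebraMap (𝓞 L) L (a q.out) - ψ q.out)) + (algebraMap (𝓞 L) L (a r.out) - ψ r.out) := by
      rw [map_sub]
      ring
    rw [h1]
    refine lt_of_le_of_lt (Valuation.map_add _ _ _) (max_lt ?_ (ha _))
    exact lt_of_le_of_lt (Valuation.map_sub _ _ _) (max_lt hqr (ha _))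
  · have hle : ∀ (k : ℕ) (x : R), x ∈ 𝔪 ^ k → v.valuation L (ψ x) ≤ exp (-(k : ℤ)) := by
      intro k
      induction k with
      | zero =>
        intro x _
        simpa using hψ x
      | succ k ih =>
        intro x hx
        rw [pow_succ] at hx
        refine Submodule.mul_induction_on (C := fun x => v.valuation L (ψ x) ≤
          exp (-((k + 1 : ℕ) : ℤ))) hx ?_ ?_
        · intro y hy z hz
          rw [map_mul, map_mul, show (-((k + 1 : ℕ) : ℤ)) = -(k : ℤ) + (-1) by push_cast; ring,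
            exp_add]
          exact mul_le_mul' (ih y hy) (le_exp_neg_one hz)
        · intro y z hy hz
          rw [map_add]
          exact (Valuation.map_add _ _ _).trans (max_le hy hz)
    have h1 := hle (k + 1) _ hk
    rw [map_pow, map_natCast, map_pow, hvp] at h1
    have h2 : ¬ v.intValuation (p : 𝓞 L) ≤ exp (-((2 : ℕ) : ℤ)) := by
      rw [HeightOneSpectrum.intValuation_le_pow_iff_mem]
      exact hp2
    have h3 : v.intValuation (p : 𝓞 L) ≠ 0 := by
      intro h
      rw [h] at h2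
      exact h2 zero_le
    rw [← exp_log h3] at h1 h2
    rw [exp_le_exp] at h2
    rw [← exp_nsmul, exp_le_exp, nsmul_eq_mul] at h1
    push_cast at h1 h2
    have h4 : -1 ≤ log (v.intValuation (p : 𝓞 L)) := by omega
    nlinarith

theorem numberField_of (L : Type*) [Field L] [i : Algebra ℚ L] (h : Module.Finite ℚ L) :
    NumberField L := by
  have hchar : CharZero L := algebraRat.charZero L
  have : i = DivisionRing.toRatAlgebra := Subsingleton.elim _ _
  subst this
  exact { to_charZero := hchar, to_finiteDimensional := h }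

/-- A finitely generated `ℚ`-algebra has a homomorphism to a number field. -/
theorem exists_hom (A : Type u) [CommRing A] [Nontrivial A] [Algebra ℚ A]
    [Algebra.FiniteType ℚ A] :
    ∃ (L : Type u) (_ : Field L) (_ : NumberField L), Nonempty (A →+* L) := by
  obtain ⟨M, hM⟩ := Ideal.exists_maximal A
  let F : Field (A ⧸ M) := Ideal.Quotient.field M
  have h1 : Algebra.FiniteType ℚ (A ⧸ M) :=
    Algebra.FiniteType.of_surjective (Ideal.Quotient.mkₐ ℚ M) (Ideal.Quotient.mkₐ_surjective ℚ M)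
  have h2 : Module.Finite ℚ (A ⧸ M) := finite_of_finite_type_of_isJacobsonRing ℚ (A ⧸ M)
  refine ⟨A ⧸ M, F, numberField_of _ h2, ⟨Ideal.Quotient.mk M⟩⟩

/-- **The point.** -/
theorem exists_point {K : Type u} [Field K] [CharZero K] (G : Finset K) :
    ∃ (p : ℕ) (𝔪 : Ideal (Algebra.adjoin ℤ (G : Set K))), p.Prime ∧ 2 < p ∧
      ((p : ℕ) : Algebra.adjoin ℤ (G : Set K)) ∈ 𝔪 ∧
      Finite (Algebra.adjoin ℤ (G : Set K) ⧸ 𝔪) ∧
      ∀ k : ℕ, ((p : ℕ) : Algebra.adjoin ℤ (G : Set K)) ^ k ∉ 𝔪 ^ (k + 1) := by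
  classical
  set A := Algebra.adjoin ℚ (G : Set K) with hA
  have hAft : Algebra.FiniteType ℚ A := (Subalgebra.fg_iff_finiteType A).mp ⟨G, rfl⟩
  obtain ⟨L, _, _, ⟨φ⟩⟩ := exists_hom A
  have hle : Algebra.adjoin ℤ (G : Set K) ≤ A.restrictScalars ℤ :=
    Algebra.adjoin_le fun x hx => Algebra.subset_adjoin (R := ℚ) hx
  let ι : Algebra.adjoin ℤ (G : Set K) →+* A :=
    (Subalgebra.inclusion hle : _ →ₐ[ℤ] A.restrictScalars ℤ).toRingHom
  let ψ : Algebra.adjoin ℤ (G : Set K) →+* L := φ.comp ι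
  let Y : Finset L := G.attach.image fun g => ψ ⟨g.1, Algebra.subset_adjoin g.2⟩
  obtain ⟨p, v, hp, hp2, hpv, hpv2, hY⟩ := exists_place L Y
  have hψ : ∀ x, v.valuation L (ψ x) ≤ 1 := by
    rintro ⟨x, hx⟩
    refine Algebra.adjoin_induction (p := fun x hx => v.valuation L (ψ ⟨x, hx⟩) ≤ 1)
      ?_ ?_ ?_ ?_ hx
    · intro g hg
      exact hY _ (Finset.mem_image.mpr ⟨⟨g, hg⟩, Finset.mem_attach _ _, rfl⟩)
    · intro r
      have h1 : (⟨algebraMap ℤ K r, Subalgebra.algebraMap_mem _ r⟩ :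
        Algebra.adjoin ℤ (G : Set K)) = (r : Algebra.adjoin ℤ (G : Set K)) := Subtype.ext (by simp)
      rw [h1, map_intCast, show ((r : ℤ) : L) = algebraMap (𝓞 L) L (r : 𝓞 L)
        by simp]
      exact v.valuation_le_one _
    · intro x y hx hy h1 h2
      have h3 : ψ ⟨x + y, add_mem hx hy⟩ = ψ ⟨x, hx⟩ + ψ ⟨y, hy⟩ := by
        rw [← map_add]
        rfl
      rw [h3]
      exact (Valuation.map_add _ _ _).trans (max_le h1 h2)
    · intro x y hx hy h1 h2
      have h3 : ψ ⟨x * y, mul_mem hx hy⟩ = ψ ⟨x, hx⟩ * ψ ⟨y, hy⟩ := by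
        rw [← map_mul]
        rfl
      rw [h3, map_mul]
      exact mul_le_one' h1 h2
  obtain ⟨𝔪, h1, h2, h3⟩ := exists_ideal ψ hpv hpv2 hψ
  exact ⟨p, 𝔪, hp, hp2, h1, h2, h3⟩

end Fermat.Agent.Cor.SML
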