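import Mathlib

/-!
# Linear recurrences modulo an ideal

`E` is a linear recurrence over `R` of positive order whose last coefficient is a unit, `𝔪` an
ideal with finite `R / 𝔪`. There is a common period `N` of all solutions modulo `𝔪`; for it the
`k`-th difference `Δ_N^k u` of a solution has its values in `𝔪 ^ k`.
-/

set_option autoImplicit false

open Finset

namespace Fermat.Agent.Cor.SML

/-- Over a finite ring all the solutions have a common period. -/
theorem exists_period {κ : Type*} [CommRing κ] [Finite κ] (E : LinearRecurrence κ)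
    (h0 : 0 < E.order) (hu : IsUnit (E.coeffs ⟨0, h0⟩)) :
    ∃ N, 0 < N ∧ ∀ u : ℕ → κ, E.IsSolution u → ∀ n, u (n + N) = u n := by
  classical
  have : Fintype κ := Fintype.ofFinite κ
  -- the step on the states
  let σ : (Fin E.order → κ) → (Fin E.order → κ) := fun s i =>
    if h : i.1 + 1 < E.order then s ⟨i.1 + 1, h⟩ else ∑ j, E.coeffs j * s j
  have hinj : Function.Injective σ := by
    intro s t hst
    have h1 : ∀ i : Fin E.order, i.1 ≠ 0 → s i = t i := by
      intro i hi
      obtain ⟨j, hj⟩ : ∃ j, i.1 = j + 1 := ⟨i.1 - 1, by omega⟩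
      have h2 := congrFun hst ⟨j, by have := i.2; omega⟩
      have h3 : j + 1 < E.order := hj ▸ i.2
      simp only [σ, dif_pos h3] at h2
      have h4 : i = ⟨j + 1, h3⟩ := Fin.ext hj
      rw [h4]
      exact h2
    have h2 : s ⟨0, h0⟩ = t ⟨0, h0⟩ := by
      have h3 := congrFun hst ⟨E.order - 1, by omega⟩
      have h4 : ¬ (E.order - 1 + 1 < E.order) := by omega
      simp only [σ, dif_neg h4] at h3
      rw [← Finset.add_sum_erase _ _ (Finset.mem_univ (⟨0, h0⟩ : Fin E.order)),
        ← Finset.add_sum_erase (a := (⟨0, h0⟩ : Fin E.order)) _ (fun j => E.coeffs j * t j)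
          (Finset.mem_univ _)] at h3
      have h5 : ∑ x ∈ Finset.univ.erase (⟨0, h0⟩ : Fin E.order), E.coeffs x * s x =
          ∑ x ∈ Finset.univ.erase (⟨0, h0⟩ : Fin E.order), E.coeffs x * t x := by
        refine Finset.sum_congr rfl fun i hi => ?_
        rw [h1 i]
        intro h
        exact (Finset.mem_erase.mp hi).1 (Fin.ext h)
      rw [h5, add_left_inj] at h3
      exact hu.mul_left_cancel h3
    funext i
    by_cases hi : i.1 = 0
    · have h4 : i = ⟨0, h0⟩ := Fin.ext hi
      rw [h4]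
      exact h2
    · exact h1 i hi
  have hbij : Function.Bijective σ := Finite.injective_iff_bijective.mp hinj
  let e : Equiv.Perm (Fin E.order → κ) := Equiv.ofBijective σ hbij
  refine ⟨orderOf e, orderOf_pos e, fun u hsol n => ?_⟩
  have hstep : ∀ m, (fun i : Fin E.order => u (m + 1 + i)) = e (fun i : Fin E.order => u (m + i)) := by
    intro m
    funext i
    change _ = σ _ i
    simp only [σ]
    split_ifs with h
    · congr 1
      omega
    · rw [← hsol m]
      congr 1
      have := i.2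
      omega
  have hpow : ∀ k m, (fun i : Fin E.order => u (m + k + i)) =
      (e ^ k) (fun i : Fin E.order => u (m + i)) := by
    intro k
    induction k with
    | zero => intro m; rfl
    | succ k ih =>
      intro m
      rw [← add_assoc, hstep, ih m, pow_succ', Equiv.Perm.mul_apply]
  have h1 := congrFun (hpow (orderOf e) n) ⟨0, h0⟩
  rw [pow_orderOf_eq_one] at h1
  simpa using h1

variable {R : Type*} [CommRing R] {E : LinearRecurrence R} {𝔪 : Ideal R}

/-- A solution through the fundamental solutions. -/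
theorem eq_sum_mkSol {w : ℕ → R} (hw : E.IsSolution w) (n : ℕ) :
    w n = ∑ i : Fin E.order, w i * E.mkSol (Pi.single i 1) n := by
  classical
  have h1 : E.IsSolution fun n => ∑ i : Fin E.order, w i * E.mkSol (Pi.single i 1) n := by
    intro n
    simp only
    rw [Finset.sum_congr rfl fun i _ => by rw [E.is_sol_mkSol (Pi.single i 1) n, Finset.mul_sum],
      Finset.sum_comm]
    refine Finset.sum_congr rfl fun j _ => ?_
    rw [Finset.mul_sum]
    refine Finset.sum_congr rfl fun i _ => ?_
    ring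
  have h2 := E.eq_mk_of_is_sol_of_eq_init (init := fun i => w i) h1 (fun k => by
    rw [Finset.sum_eq_single k]
    · rw [E.mkSol_eq_init, Pi.single_eq_same, mul_one]
    · intro b _ hb
      rw [E.mkSol_eq_init, Pi.single_eq_of_ne (Ne.symm hb), mul_zero]
    · intro h
      exact absurd (Finset.mem_univ k) h) n
  rw [h2]
  exact E.eq_mk_of_is_sol_of_eq_init hw (fun _ => rfl) n

theorem isSolution_fwdDiff {w : ℕ → R} (hw : E.IsSolution w) (N : ℕ) :
    E.IsSolution (fwdDiff N w) := by
  intro n
  simp only [fwdDiff]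
  rw [hw n, show n + E.order + N = (n + N) + E.order by ring, hw (n + N), ← Finset.sum_sub_distrib]
  refine Finset.sum_congr rfl fun i _ => ?_
  rw [mul_sub, show n + N + (i : ℕ) = n + i + N by ring]

/-- The common period modulo `𝔪`. -/
theorem exists_period_mod (E : LinearRecurrence R) (h0 : 0 < E.order)
    (hu : IsUnit (E.coeffs ⟨0, h0⟩)) (hfin : Finite (R ⧸ 𝔪)) :
    ∃ N, 0 < N ∧ ∀ w : ℕ → R, E.IsSolution w → ∀ n, fwdDiff N w n ∈ 𝔪 := by
  let E' : LinearRecurrence (R ⧸ 𝔪) := ⟨E.order, fun i => Ideal.Quotient.mk 𝔪 (E.coeffs i)⟩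
  obtain ⟨N, hN, h⟩ := exists_period E' h0 (hu.map (Ideal.Quotient.mk 𝔪))
  refine ⟨N, hN, fun w hw n => ?_⟩
  have h1 : E'.IsSolution fun n => Ideal.Quotient.mk 𝔪 (w n) := by
    intro n
    change Ideal.Quotient.mk 𝔪 (w (n + E.order)) = ∑ i : Fin E.order,
      Ideal.Quotient.mk 𝔪 (E.coeffs i) * Ideal.Quotient.mk 𝔪 (w (n + i))
    rw [hw n, map_sum]
    exact Finset.sum_congr rfl fun i _ => map_mul _ _ _
  have h2 := h _ h1 n
  rw [fwdDiff]
  exact (Ideal.Quotient.mk_eq_mk_iff_sub_mem _ _).mp h2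

/-- The differences of order `k` are in `𝔪 ^ k`. -/
theorem fwdDiff_iter_mem {N : ℕ} (hN : ∀ w : ℕ → R, E.IsSolution w → ∀ n, fwdDiff N w n ∈ 𝔪)
    {w : ℕ → R} (hw : E.IsSolution w) (k : ℕ) :
    E.IsSolution ((fwdDiff N)^[k] w) ∧ ∀ n, (fwdDiff N)^[k] w n ∈ 𝔪 ^ k := by
  induction k with
  | zero =>
    refine ⟨hw, fun n => ?_⟩
    rw [pow_zero, Ideal.one_eq_top]
    trivial
  | succ k ih =>
    rw [Function.iterate_succ_apply']
    refine ⟨isSolution_fwdDiff ih.1 N, fun n => ?_⟩
    have h1 : fwdDiff N ((fwdDiff N)^[k] w) n = ∑ i : Fin E.order,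
        (fwdDiff N)^[k] w i * fwdDiff N (E.mkSol (Pi.single i 1)) n := by
      rw [fwdDiff, eq_sum_mkSol ih.1 (n + N), eq_sum_mkSol ih.1 n, ← Finset.sum_sub_distrib]
      refine Finset.sum_congr rfl fun i _ => ?_
      rw [fwdDiff, mul_sub]
    rw [h1, pow_succ]
    refine Ideal.sum_mem _ fun i _ => Ideal.mul_mem_mul (ih.2 _) (hN _ (E.is_sol_mkSol _) n)

end Fermat.Agent.Cor.SML
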