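import Fermat.Agent.Corollaries.SML.Div
import Fermat.Agent.Corollaries.SML.Krull
import Fermat.Agent.Corollaries.SML.Rec

/-!
# The dichotomy on the progressions

With a prime ideal `𝔪` as in `Krull.lean`, `N` the common period modulo `𝔪`: on every progression
`r + N m` a solution has only finitely many zeros, or it is zero.
-/

set_option autoImplicit false

open Finset

namespace Fermat.Agent.Cor.SML

/-- `x ∈ 𝔪^(t + j) / p^t` up to an integer prime to `p`. -/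
def Fil {R : Type*} (K : Type*) [CommRing R] [Field K] [Algebra R K] (p : ℕ) (𝔪 : Ideal R) (j : ℕ)
    (x : K) : Prop :=
  ∃ (U : ℤ) (t : ℕ), IsCoprime U (p : ℤ) ∧ ∃ a ∈ 𝔪 ^ (t + j), (U : K) * (p : K) ^ t * x =
    algebraMap R K a

section Fil

variable {R K : Type*} [CommRing R] [Field K] [Algebra R K] {p : ℕ} {𝔪 : Ideal R}

theorem Fil.zero (j : ℕ) : Fil K p 𝔪 j (0 : K) :=
  ⟨1, 0, isCoprime_one_left, 0, zero_mem _, by simp⟩

theorem Fil.add (hpm : (p : R) ∈ 𝔪) {j : ℕ} {x y : K} (hx : Fil K p 𝔪 j x)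
    (hy : Fil K p 𝔪 j y) : Fil K p 𝔪 j (x + y) := by
  obtain ⟨U, t, hU, a, ha, h1⟩ := hx
  obtain ⟨V, s, hV, b, hb, h2⟩ := hy
  refine ⟨U * V, t + s, hU.mul_left hV, (V : R) * (p : R) ^ s * a + (U : R) * (p : R) ^ t * b,
    ?_, ?_⟩
  · refine add_mem ?_ ?_
    · rw [mul_assoc, show t + s + j = s + (t + j) by ring, pow_add]
      exact Ideal.mul_mem_left _ _ (Ideal.mul_mem_mul (Ideal.pow_mem_pow hpm s) ha)
    · rw [mul_assoc, show t + s + j = t + (s + j) by ring, pow_add]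
      exact Ideal.mul_mem_left _ _ (Ideal.mul_mem_mul (Ideal.pow_mem_pow hpm t) hb)
  · rw [map_add, map_mul, map_mul, map_mul, map_mul, ← h1, ← h2, map_pow, map_pow, map_natCast,
      map_intCast, map_intCast]
    push_cast
    ring

theorem Fil.int_mul {j : ℕ} {x : K} (q : ℤ) (hx : Fil K p 𝔪 j x) : Fil K p 𝔪 j ((q : K) * x) := by
  obtain ⟨U, t, hU, a, ha, h1⟩ := hx
  refine ⟨U, t, hU, (q : R) * a, Ideal.mul_mem_left _ _ ha, ?_⟩
  rw [map_mul, map_intCast, ← h1]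
  ring

theorem Fil.sum (hpm : (p : R) ∈ 𝔪) {j : ℕ} {ι : Type*} (s : Finset ι) (f : ι → K)
    (h : ∀ i ∈ s, Fil K p 𝔪 j (f i)) : Fil K p 𝔪 j (∑ i ∈ s, f i) :=
  Finset.sum_induction f (Fil K p 𝔪 j) (fun _ _ => Fil.add hpm) (Fil.zero j) h

/-- `c / k!` for `c ∈ 𝔪 ^ k`. -/
theorem Fil.div_factorial [CharZero K] (hp : p.Prime) (hp2 : 2 < p) (hpm : (p : R) ∈ 𝔪)
    {j k : ℕ} (hk : 2 * j ≤ k) {c : R} (hc : c ∈ 𝔪 ^ k) :
    Fil K p 𝔪 j (algebraMap R K c / (k.factorial : K)) := by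
  have : Fact p.Prime := ⟨hp⟩
  obtain ⟨e, U, hU, he⟩ := Nat.exists_eq_pow_mul_and_not_dvd k.factorial_ne_zero p hp.ne_one
  have h1 : e ≤ padicValNat p k.factorial :=
    (padicValNat_dvd_iff_le k.factorial_ne_zero).mp ⟨U, he⟩
  have h2 : (p - 1) * padicValNat p k.factorial ≤ k := by
    rw [sub_one_mul_padicValNat_factorial]
    exact Nat.sub_le _ _
  have h3 : 2 * e ≤ k := by
    calc 2 * e ≤ (p - 1) * padicValNat p k.factorial := Nat.mul_le_mul (by omega) h1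
      _ ≤ k := h2
  have hcop : IsCoprime (U : ℤ) (p : ℤ) := by
    rw [Nat.isCoprime_iff_coprime]
    exact (Nat.Coprime.symm ((Nat.Prime.coprime_iff_not_dvd hp).mpr hU))
  have hpK : (p : K) ≠ 0 := by exact_mod_cast hp.ne_zero
  have hUK : (U : K) ≠ 0 := by
    have : U ≠ 0 := by
      rintro rfl
      exact hU (dvd_zero p)
    exact_mod_cast this
  refine ⟨U, k, hcop, (p : R) ^ (k - e) * c, ?_, ?_⟩
  · have h4 : (p : R) ^ (k - e) * c ∈ 𝔪 ^ (k - e + k) := by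
      rw [pow_add]
      exact Ideal.mul_mem_mul (Ideal.pow_mem_pow hpm _) hc
    exact Ideal.pow_le_pow_right (by omega) h4
  · rw [he, map_mul, map_pow, map_natCast]
    push_cast
    have h5 : (p : K) ^ k = (p : K) ^ (k - e) * (p : K) ^ e := by
      rw [← pow_add, Nat.sub_add_cancel (by omega)]
    rw [h5]
    field_simp

end Fil

variable {R K : Type*} [CommRing R] [IsDomain R] [IsNoetherianRing R] [Field K] [CharZero K]
  [Algebra R K] {p : ℕ} {𝔪 : Ideal R}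

/-- A function `∑ C(m, k) c_k` with `c_k ∈ 𝔪 ^ k` and infinitely many zeros is zero. -/
theorem eq_zero_of_infinite (K : Type*) [Field K] [CharZero K] [Algebra R K]
    (hinj : Function.Injective (algebraMap R K)) (hp : p.Prime) (hp2 : 2 < p)
    (hpm : (p : R) ∈ 𝔪) (H : ∀ k : ℕ, (p : R) ^ k ∉ 𝔪 ^ (k + 1)) {c f : ℕ → R}
    (hc : ∀ k, c k ∈ 𝔪 ^ k) (hf : ∀ m, f m = ∑ k ∈ range (m + 1), (m.choose k : R) * c k)
    (hinf : {m | f m = 0}.Infinite) (m : ℕ) : f m = 0 := by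
  refine eq_zero_of_forall K hinj hp.ne_zero hpm H fun j => ?_
  obtain ⟨Z, hZ, hcard⟩ := hinf.exists_subset_card_eq (2 * j)
  have hfK : ∀ m, algebraMap R K (f m) =
      ∑ k ∈ range (m + 1), (m.choose k : K) * algebraMap R K (c k) := by
    intro m
    rw [hf m, map_sum]
    exact Finset.sum_congr rfl fun k _ => by rw [map_mul, map_natCast]
  obtain ⟨M, q, hq⟩ := exists_sum hfK (Z := Z) (fun z hz => by rw [hZ hz, map_zero]) m
  rw [hcard] at hq
  have h1 : Fil K p 𝔪 j (algebraMap R K (f m)) := by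
    rw [hq]
    refine Fil.sum hpm _ _ fun k hk => Fil.int_mul _ (Fil.div_factorial hp hp2 hpm ?_ (hc k))
    exact (Finset.mem_Ico.mp hk).1
  obtain ⟨U, t, hU, a, ha, h2⟩ := h1
  refine ⟨U, t, hU, ?_⟩
  have h3 : (U : R) * (p : R) ^ t * f m = a := by
    apply hinj
    rw [← h2, map_mul, map_mul, map_pow, map_natCast, map_intCast]
  rw [h3]
  exact ha

/-- **The dichotomy.** -/
theorem dichotomy (K : Type*) [Field K] [CharZero K] [Algebra R K]
    (hinj : Function.Injective (algebraMap R K)) (E : LinearRecurrence R) (h0 : 0 < E.order)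
    (hunit : IsUnit (E.coeffs ⟨0, h0⟩)) (hp : p.Prime) (hp2 : 2 < p) (hpm : (p : R) ∈ 𝔪)
    (hfin : Finite (R ⧸ 𝔪)) (H : ∀ k : ℕ, (p : R) ^ k ∉ 𝔪 ^ (k + 1)) :
    ∃ N, 0 < N ∧ ∀ u : ℕ → R, E.IsSolution u → ∀ r : ℕ,
      {m | u (r + m * N) = 0}.Finite ∨ ∀ m, u (r + m * N) = 0 := by
  obtain ⟨N, hN, h⟩ := exists_period_mod (𝔪 := 𝔪) E h0 hunit hfin
  refine ⟨N, hN, fun u hu r => ?_⟩
  by_cases hfin : {m | u (r + m * N) = 0}.Finite
  · exact Or.inl hfin
  · refine Or.inr (eq_zero_of_infinite K hinj hp hp2 hpm H (c := fun k => (fwdDiff N)^[k] u r)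
      (f := fun m => u (r + m * N)) (fun k => (fwdDiff_iter_mem h hu k).2 r) (fun m => ?_) hfin)
    have h1 := shift_eq_sum_fwdDiff_iter N u m r
    simp only [smul_eq_mul, nsmul_eq_mul] at h1
    simpa using h1

end Fermat.Agent.Cor.SML
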