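import Mathlib

/-!
# The division lemma

`f(m) = ∑_k C(m, k) c_k` for a sequence `c` in a field of characteristic zero. If `f` vanishes on a
finite set `Z` of `j` natural numbers, then every `f(m)` is a combination with integral
coefficients of the `c_k / k!` with `k ≥ j`.
-/

set_option autoImplicit false

open Polynomial Finset

namespace Fermat.Agent.Cor.SML

variable {K : Type*} [Field K] [CharZero K]

/-- `C(x, k) c = P_k(x) c / k!` with `P_k = X (X - 1) ⋯ (X - k + 1)`. -/
theorem choose_mul (x k : ℕ) (c : K) : (x.choose k : K) * c =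
    (((descPochhammer ℤ k).eval (x : ℤ) : ℤ) : K) * (c / (k.factorial : K)) := by
  have h1 : (descPochhammer ℤ k).eval (x : ℤ) = ((x.descFactorial k : ℕ) : ℤ) :=
    descPochhammer_eval_eq_descFactorial ℤ x k
  have h2 : (k.factorial : K) ≠ 0 := by exact_mod_cast k.factorial_ne_zero
  rw [h1, Nat.descFactorial_eq_factorial_mul_choose]
  push_cast
  field_simp

theorem exists_sum {c f : ℕ → K} (hf : ∀ m, f m = ∑ k ∈ range (m + 1), (m.choose k : K) * c k)
    {Z : Finset ℕ} (hZ : ∀ z ∈ Z, f z = 0) (m : ℕ) : ∃ (M : ℕ) (q : ℕ → ℤ),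
      f m = ∑ k ∈ Ico Z.card M, (q k : K) * (c k / (k.factorial : K)) := by
  classical
  set M := max m (Z.sup id) + 1 with hM
  set P : ℕ → ℤ[X] := fun k => descPochhammer ℤ k with hP
  set e : ℕ → K := fun k => c k / (k.factorial : K) with he
  -- the values through the polynomials
  have hval : ∀ x, x < M → f x = ∑ k ∈ range M, (((P k).eval (x : ℤ) : ℤ) : K) * e k := by
    intro x hx
    rw [hf x, ← Finset.sum_subset (Finset.range_mono (by omega : x + 1 ≤ M))]
    · exact Finset.sum_congr rfl fun k _ => choose_mul x k (c k)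
    · intro k _ hk
      rw [← choose_mul, Nat.choose_eq_zero_of_lt (by simpa using hk), Nat.cast_zero, zero_mul]
  set W : ℤ[X] := ∏ z ∈ Z, (X - C (z : ℤ)) with hW
  have hWm : W.Monic := monic_prod_of_monic _ _ fun z _ => monic_X_sub_C _
  have hWd : W.natDegree = Z.card := by
    rw [hW, natDegree_prod_of_monic _ _ fun z _ => monic_X_sub_C _]
    simp only [natDegree_X_sub_C, sum_const, smul_eq_mul, mul_one]
  have hW0 : ∀ z ∈ Z, W.eval (z : ℤ) = 0 := by
    intro z hz
    rw [hW, eval_prod]
    exact Finset.prod_eq_zero hz (by simp)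
  have hsplit : ∀ (k : ℕ) (x : ℤ), (P k).eval x = (P k %ₘ W).eval x +
      W.eval x * (P k /ₘ W).eval x := by
    intro k x
    conv_lhs => rw [← modByMonic_add_div (P k) W]
    rw [eval_add, eval_mul]
  -- the polynomial of the remainders
  set G : K[X] := ∑ k ∈ range M, C (e k) * (P k %ₘ W).map (Int.castRingHom K) with hG
  have hGe : ∀ x : ℤ, G.eval (x : K) = ∑ k ∈ range M, (((P k %ₘ W).eval x : ℤ) : K) * e k := by
    intro x
    rw [hG, eval_finsetSum]
    refine Finset.sum_congr rfl fun k _ => ?_
    rw [eval_mul, eval_C, mul_comm]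
    congr 1
    rw [show (x : K) = (Int.castRingHom K) x from rfl, eval_map, eval₂_at_apply]
    rfl
  have hG0 : G = 0 := by
    by_cases hZe : Z.card = 0
    · have hW1 : W = 1 := by rw [hW, Finset.card_eq_zero.mp hZe, Finset.prod_empty]
      rw [hG, hW1]
      simp
    · refine eq_zero_of_natDegree_lt_card_of_eval_eq_zero' G (Z.image fun z : ℕ => (z : K)) ?_ ?_
      · intro i hi
        obtain ⟨z, hz, rfl⟩ := Finset.mem_image.mp hi
        have h1 := hGe (z : ℤ)
        rw [Int.cast_natCast] at h1
        rw [h1, ← hZ z hz, hval z (by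
          have := Finset.le_sup (f := id) hz
          simp only [id] at this
          omega)]
        refine Finset.sum_congr rfl fun k _ => ?_
        rw [hsplit k z, hW0 z hz, zero_mul, add_zero]
      · rw [Finset.card_image_of_injective _ Nat.cast_injective]
        refine lt_of_le_of_lt (natDegree_sum_le_of_forall_le (n := Z.card - 1) _ _ fun k _ => ?_)
          (by omega)
        refine (natDegree_C_mul_le _ _).trans ((natDegree_map_le).trans ?_)
        have h1 := natDegree_modByMonic_lt (P k) hWm (by
          intro h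
          rw [h, natDegree_one] at hWd
          omega)
        omega
  refine ⟨M, fun k => W.eval (m : ℤ) * (P k /ₘ W).eval (m : ℤ), ?_⟩
  have h1 : f m = ∑ k ∈ range M, ((W.eval (m : ℤ) * (P k /ₘ W).eval (m : ℤ) : ℤ) : K) * e k := by
    have h2 := hGe (m : ℤ)
    rw [hG0, eval_zero] at h2
    rw [hval m (by omega), ← sub_eq_zero, ← Finset.sum_sub_distrib, h2]
    refine Finset.sum_congr rfl fun k _ => ?_
    rw [hsplit k (m : ℤ)]
    push_cast
    ring
  rw [h1]
  refine (Finset.sum_subset ?_ ?_).symm
  · intro k hk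
    exact Finset.mem_range.mpr (Finset.mem_Ico.mp hk).2
  · intro k hk hk'
    have h3 : k < Z.card := by
      by_contra h
      exact hk' (Finset.mem_Ico.mpr ⟨not_lt.mp h, Finset.mem_range.mp hk⟩)
    have h4 : P k /ₘ W = 0 := by
      rw [divByMonic_eq_zero_iff hWm]
      refine degree_lt_degree ?_
      rw [hWd, hP]
      rw [descPochhammer_natDegree]
      exact h3
    rw [h4, eval_zero, mul_zero, Int.cast_zero, zero_mul]

end Fermat.Agent.Cor.SML
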