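import Fermat.Agent.Corollaries.SML.Main

/-!
# The dynamical Mordell-Lang theorem for linear maps

* `mem_rec_iff` : a sequence is a linear recurrence sequence if and only if it lies in a finite
  dimensional space of sequences which is stable under the shift; the linear recurrence sequences
  form an algebra `Rec K`;
* `dynamical_mordell_lang` : **`K` a field of characteristic zero, `A` a square matrix, `v` a vector,
  `V` an algebraic set: up to a finite set, `{n | A ^ n v ∈ V}` is a union of residue classes.**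
-/

set_option autoImplicit false

open Finset

namespace Fermat.Agent.Cor.SML

section Algebra

variable (K : Type*) [Field K]

/-- The shift. -/
def shift : (ℕ → K) →ₐ[K] (ℕ → K) where
  toFun u n := u (n + 1)
  map_one' := rfl
  map_mul' _ _ := rfl
  map_zero' := rfl
  map_add' _ _ := rfl
  commutes' _ := rfl

/-- The algebra of the linear recurrence sequences. -/
def Rec : Subalgebra K (ℕ → K) where
  carrier := {u | ∃ U : Submodule K (ℕ → K), U.FG ∧ U.map (shift K).toLinearMap ≤ U ∧ u ∈ U}
  mul_mem' := by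
    rintro u v ⟨U, hU1, hU2, hU3⟩ ⟨V, hV1, hV2, hV3⟩
    refine ⟨U * V, hU1.mul hV1, ?_, Submodule.mul_mem_mul hU3 hV3⟩
    rw [Submodule.map_mul]
    exact mul_le_mul' hU2 hV2
  add_mem' := by
    rintro u v ⟨U, hU1, hU2, hU3⟩ ⟨V, hV1, hV2, hV3⟩
    refine ⟨U ⊔ V, hU1.sup hV1, ?_, add_mem (Submodule.mem_sup_left hU3)
      (Submodule.mem_sup_right hV3)⟩
    rw [Submodule.map_sup]
    exact sup_le_sup hU2 hV2
  algebraMap_mem' c := by
    refine ⟨Submodule.span K {1}, Submodule.fg_span (Set.finite_singleton _), ?_, ?_⟩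
    · rw [Submodule.map_span, Set.image_singleton]
      exact le_rfl
    · exact Submodule.mem_span_singleton.mpr ⟨c, (Algebra.algebraMap_eq_smul_one c).symm⟩

variable {K}

theorem mem_rec {u : ℕ → K} : u ∈ Rec K ↔
    ∃ U : Submodule K (ℕ → K), U.FG ∧ U.map (shift K).toLinearMap ≤ U ∧ u ∈ U := Iff.rfl

/-- The elements of `Rec K` are the linear recurrence sequences. -/
theorem mem_rec_iff {u : ℕ → K} : u ∈ Rec K ↔ ∃ E : LinearRecurrence K, E.IsSolution u := by
  constructor
  · rintro ⟨U, hU1, hU2, hU3⟩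
    have hfin : Module.Finite K U := Module.Finite.iff_fg.mpr hU1
    let T : U →ₗ[K] U := (shift K).toLinearMap.restrict fun x hx =>
      hU2 (Submodule.mem_map_of_mem hx)
    have hT : ∀ (i : ℕ) (w : U) (n : ℕ), ((T ^ i) w : ℕ → K) n = (w : ℕ → K) (n + i) := by
      intro i
      induction i with
      | zero => intro w n; rfl
      | succ i ih =>
        intro w n
        rw [pow_succ, Module.End.mul_apply, ih]
        rfl
    set P := T.charpoly with hP
    have hmon : P.Monic := LinearMap.charpoly_monic T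
    refine ⟨⟨P.natDegree, fun i => -P.coeff i⟩, fun n => ?_⟩
    have h1 := LinearMap.aeval_self_charpoly T
    rw [← hP, Polynomial.aeval_eq_sum_range] at h1
    have h2 := congrArg (fun f : U →ₗ[K] U => (f ⟨u, hU3⟩ : ℕ → K) n) h1
    simp only [LinearMap.sum_apply, LinearMap.smul_apply, Submodule.coe_sum, Submodule.coe_smul,
      Finset.sum_apply, Pi.smul_apply, hT, smul_eq_mul, LinearMap.zero_apply,
      Submodule.coe_zero, Pi.zero_apply] at h2
    rw [Finset.sum_range_succ, hmon.coeff_natDegree, one_mul] at h2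
    change u (n + P.natDegree) = ∑ i : Fin P.natDegree, -P.coeff i * u (n + i)
    rw [Fin.sum_univ_eq_sum_range (fun i => -P.coeff i * u (n + i)), eq_neg_of_add_eq_zero_right h2,
      ← Finset.sum_neg_distrib]
    exact Finset.sum_congr rfl fun i _ => by ring
  · rintro ⟨E, hE⟩
    refine ⟨E.solSpace, ?_, ?_, hE⟩
    · have : Module.Finite K E.solSpace := Module.Finite.equiv E.toInit.symm
      exact Module.Finite.iff_fg.mp this
    · rintro _ ⟨w, hw, rfl⟩
      intro n
      have h1 := hw (n + 1)
      change w (n + E.order + 1) = ∑ i, E.coeffs i * w (n + i + 1)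
      rw [show n + E.order + 1 = n + 1 + E.order by ring, h1]
      exact Finset.sum_congr rfl fun i _ => by rw [show n + 1 + (i : ℕ) = n + i + 1 by ring]

/-- The coordinates of `A ^ n v`. -/
theorem orbit_mem {σ : Type*} [Fintype σ] [DecidableEq σ] (A : Matrix σ σ K) (v : σ → K) (i : σ) :
    (fun n => (A ^ n).mulVec v i) ∈ Rec K := by
  refine ⟨Submodule.span K (Set.range fun (i : σ) (n : ℕ) => (A ^ n).mulVec v i),
    Submodule.fg_span (Set.finite_range _), ?_, Submodule.subset_span ⟨i, rfl⟩⟩
  rw [Submodule.map_span, Submodule.span_le]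
  rintro _ ⟨_, ⟨i, rfl⟩, rfl⟩
  have h : (shift K).toLinearMap (fun n => (A ^ n).mulVec v i) =
      ∑ j, A i j • fun n : ℕ => (A ^ n).mulVec v j := by
    funext n
    change (A ^ (n + 1)).mulVec v i = _
    rw [pow_succ', ← Matrix.mulVec_mulVec, Finset.sum_apply]
    rfl
  rw [h]
  exact sum_mem fun j _ => Submodule.smul_mem _ _ (Submodule.subset_span ⟨j, rfl⟩)

/-- The values of a polynomial at `A ^ n v`. -/
theorem eval_mem {σ : Type*} [Fintype σ] [DecidableEq σ] (A : Matrix σ σ K) (v : σ → K)
    (f : MvPolynomial σ K) : (fun n => MvPolynomial.eval ((A ^ n).mulVec v) f) ∈ Rec K := by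
  have h : (fun n => MvPolynomial.eval ((A ^ n).mulVec v) f) =
      MvPolynomial.aeval (fun (i : σ) (n : ℕ) => (A ^ n).mulVec v i) f := by
    induction f using MvPolynomial.induction_on with
    | C a =>
      funext n
      rw [MvPolynomial.eval_C, MvPolynomial.aeval_C]
      rfl
    | add p q hp hq =>
      rw [map_add, ← hp, ← hq]
      funext n
      rw [map_add]
      rfl
    | mul_X p i hp =>
      rw [map_mul, ← hp, MvPolynomial.aeval_X]
      funext n
      rw [map_mul, MvPolynomial.eval_X]
      rfl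
  have key : ∀ f : MvPolynomial σ K,
      MvPolynomial.aeval (fun (i : σ) (n : ℕ) => (A ^ n).mulVec v i) f ∈ Rec K := by
    intro f
    induction f using MvPolynomial.induction_on with
    | C a =>
      rw [MvPolynomial.aeval_C]
      exact Subalgebra.algebraMap_mem _ _
    | add p q hp hq =>
      rw [map_add]
      exact add_mem hp hq
    | mul_X p i hp =>
      rw [map_mul, MvPolynomial.aeval_X]
      exact mul_mem hp (orbit_mem A v i)
  rw [h]
  exact key f

end Algebra

variable {K : Type*} [Field K] [CharZero K]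

/-- A finite number of linear recurrence sequences. -/
theorem exists_finite_or_of_finset {ι : Type*} (s : Finset ι) (u : ι → ℕ → K)
    (hu : ∀ i ∈ s, u i ∈ Rec K) : ∃ N, 0 < N ∧ ∀ r : ℕ,
      {m | ∀ i ∈ s, u i (r + m * N) = 0}.Finite ∨ {m | ¬ ∀ i ∈ s, u i (r + m * N) = 0}.Finite := by
  classical
  have h1 : ∀ i : s, ∃ N, 0 < N ∧ ∀ r : ℕ, {m | u i (r + m * N) = 0}.Finite ∨
      {m | u i (r + m * N) ≠ 0}.Finite := fun i => by
    obtain ⟨E, hE⟩ := mem_rec_iff.mp (hu i i.2)
    exact exists_finite_or E.order E rfl hE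
  choose N hN h using h1
  refine ⟨∏ i, N i, Finset.prod_pos fun i _ => hN i, fun r => ?_⟩
  have h2 : ∀ i : s, {m | u i (r + m * ∏ i, N i) = 0}.Finite ∨
      {m | u i (r + m * ∏ i, N i) ≠ 0}.Finite := by
    intro i
    obtain ⟨c, hc⟩ := Finset.dvd_prod_of_mem N (Finset.mem_univ i)
    have hc0 : c ≠ 0 := by
      rintro rfl
      rw [mul_zero] at hc
      exact (Finset.prod_pos fun i _ => hN i).ne' hc
    have hinj : Function.Injective fun m : ℕ => m * c := fun a b hab =>
      Nat.eq_of_mul_eq_mul_right (Nat.pos_of_ne_zero hc0) hab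
    have h3 : ∀ m, r + m * ∏ i, N i = r + m * c * N i := fun m => by
      rw [hc]
      ring
    simp only [h3]
    rcases h i r with h4 | h4
    · exact Or.inl (h4.preimage hinj.injOn)
    · exact Or.inr (h4.preimage hinj.injOn)
  by_cases h3 : ∃ i : s, {m | u i (r + m * ∏ i, N i) = 0}.Finite
  · obtain ⟨i, hi⟩ := h3
    exact Or.inl (hi.subset fun m hm => hm i i.2)
  · push Not at h3
    right
    refine (Set.finite_iUnion fun i : s => (h2 i).resolve_left (h3 i)).subset ?_
    intro m hm
    change ¬ ∀ i ∈ s, u i (r + m * ∏ i, N i) = 0 at hm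
    push Not at hm
    obtain ⟨i, hi, him⟩ := hm
    exact Set.mem_iUnion.mpr ⟨⟨i, hi⟩, him⟩

/-- **The dynamical Mordell-Lang theorem for linear maps.** -/
theorem dynamical_mordell_lang {σ : Type*} [Fintype σ] [DecidableEq σ] (A : Matrix σ σ K)
    (v : σ → K) (F : Set (MvPolynomial σ K)) : ∃ N, 0 < N ∧ ∀ r < N,
      {n | n % N = r ∧ ∀ f ∈ F, MvPolynomial.eval ((A ^ n).mulVec v) f = 0}.Finite ∨
      {n | n % N = r ∧ ¬ ∀ f ∈ F, MvPolynomial.eval ((A ^ n).mulVec v) f = 0}.Finite := by
  classical
  obtain ⟨s, hs⟩ : (Ideal.span F).FG := (isNoetherian_def.mp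
    (inferInstance : IsNoetherian (MvPolynomial σ K) (MvPolynomial σ K))) _
  have hiff : ∀ x : σ → K, (∀ f ∈ F, MvPolynomial.eval x f = 0) ↔
      ∀ f ∈ s, MvPolynomial.eval x f = 0 := by
    intro x
    have h1 : ∀ T : Set (MvPolynomial σ K), (∀ f ∈ T, MvPolynomial.eval x f = 0) ↔
        Ideal.span T ≤ RingHom.ker (MvPolynomial.eval x) := fun T => by
      rw [Ideal.span_le]
      exact Iff.rfl
    rw [h1]
    have h2 := h1 (s : Set (MvPolynomial σ K))
    rw [show Ideal.span (s : Set (MvPolynomial σ K)) = Ideal.span F from hs] at h2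
    exact h2.symm
  obtain ⟨N, hN, h⟩ := exists_finite_or_of_finset s
    (fun f n => MvPolynomial.eval ((A ^ n).mulVec v) f) fun f _ => eval_mem A v f
  refine ⟨N, hN, fun r _ => ?_⟩
  simp only [hiff]
  have hsub : ∀ P : ℕ → Prop, {n | n % N = r ∧ P n} ⊆
      (fun m => r + m * N) '' {m | P (r + m * N)} := by
    rintro P n ⟨h1, h2⟩
    have h3 : r + n / N * N = n := by
      rw [← h1, mul_comm]
      exact Nat.mod_add_div n N
    refine ⟨n / N, ?_, h3⟩
    change P (r + n / N * N)
    rw [h3]
    exact h2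
  rcases h r with h1 | h1
  · exact Or.inl ((h1.image _).subset
      (hsub fun n => ∀ f ∈ s, MvPolynomial.eval ((A ^ n).mulVec v) f = 0))
  · exact Or.inr ((h1.image _).subset
      (hsub fun n => ¬ ∀ f ∈ s, MvPolynomial.eval ((A ^ n).mulVec v) f = 0))

end Fermat.Agent.Cor.SML
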