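import Fermat.Agent.Corollaries.SML.Sums

/-!
# The theorem of Skolem, Mahler and Lech is false in characteristic `p`

* `lech` : **`p` a prime number, `K` a field of characteristic `p`, `t ∈ K` transcendental over
  `𝔽_p`: `(1 + t) ^ n = 1 + t ^ n` if and only if `n` is a power of `p` (Lech 1953).** The sequence
  `(1 + t) ^ n - t ^ n - 1` is a linear recurrence sequence.
* `not_skolem_mahler_lech` : its zeros are not, up to a finite set, a union of residue classes.
-/

set_option autoImplicit false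

open Polynomial

namespace Fermat.Agent.Cor.SML

/-- The polynomials `(1 + X) ^ n` and `1 + X ^ n` in characteristic `p`. -/
theorem one_add_X_pow_iff {F : Type*} [Field F] {p : ℕ} [hp : Fact p.Prime] [CharP F p] (n : ℕ) :
    (1 + X : F[X]) ^ n = 1 + X ^ n ↔ ∃ k, n = p ^ k := by
  constructor
  · intro h
    rcases Nat.eq_zero_or_pos n with rfl | hn
    · rw [pow_zero, pow_zero, left_eq_add] at h
      exact absurd h one_ne_zero
    obtain ⟨k, m, hm, rfl⟩ := Nat.exists_eq_pow_mul_and_not_dvd hn.ne' p hp.out.ne_one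
    refine ⟨k, ?_⟩
    by_contra hne
    have hm1 : m ≠ 1 := fun h1 => hne (by rw [h1, mul_one])
    have hm0 : m ≠ 0 := fun h0 => hm (h0 ▸ dvd_zero p)
    have hpk : 0 < p ^ k := pow_pos hp.out.pos k
    have h1 : (1 + X : F[X]) ^ (p ^ k * m) = ((1 + X) ^ m).comp (X ^ p ^ k) := by
      rw [pow_mul, add_pow_char_pow, one_pow, pow_comp, add_comp, one_comp, X_comp]
    have h2 := congrArg (fun f : F[X] => f.coeff (p ^ k)) h
    rw [h1] at h2
    have h3 : (((1 + X : F[X]) ^ m).comp (X ^ p ^ k)).coeff (p ^ k) = m := by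
      rw [← expand_eq_comp_X_pow, coeff_expand hpk, if_pos dvd_rfl, Nat.div_self hpk,
        coeff_one_add_X_pow, Nat.choose_one_right]
    have h4 : (1 + X ^ (p ^ k * m) : F[X]).coeff (p ^ k) = 0 := by
      rw [coeff_add, coeff_one, coeff_X_pow, if_neg hpk.ne', if_neg, add_zero]
      intro h5
      exact hm1 (Nat.eq_of_mul_eq_mul_left hpk (by rw [← h5, mul_one]))
    simp only [h3, h4] at h2
    exact hm ((CharP.cast_eq_zero_iff F p m).mp h2)
  · rintro ⟨k, rfl⟩
    rw [add_pow_char_pow, one_pow]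

/-- **Lech's example.** -/
theorem lech {p : ℕ} [hp : Fact p.Prime] {K : Type*} [Field K] [Algebra (ZMod p) K] {t : K}
    (ht : Transcendental (ZMod p) t) :
    {n : ℕ | (1 + t) ^ n - t ^ n - 1 = 0} = {n | ∃ k, n = p ^ k} := by
  ext n
  change (1 + t) ^ n - t ^ n - 1 = 0 ↔ ∃ k, n = p ^ k
  rw [← one_add_X_pow_iff (F := ZMod p) (p := p) n]
  have h1 : (1 + t) ^ n - t ^ n - 1 = aeval t ((1 + X) ^ n - (1 + X ^ n) : (ZMod p)[X]) := by
    simp only [map_sub, map_pow, map_add, map_one, aeval_X]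
    ring
  rw [h1, ← sub_eq_zero (a := (1 + X : (ZMod p)[X]) ^ n)]
  constructor
  · intro h
    exact (transcendental_iff_injective.mp ht) (by rw [h, map_zero])
  · intro h
    rw [h, map_zero]

/-- The set of the powers of `p` is not a union of residue classes up to a finite set. -/
theorem powers_not_periodic {p : ℕ} (hp : p.Prime) : ¬ ∃ N, 0 < N ∧ ∀ r < N,
    {n | n % N = r ∧ ∃ k, n = p ^ k}.Finite ∨ {n | n % N = r ∧ ¬ ∃ k, n = p ^ k}.Finite := by
  rintro ⟨N, hN, h⟩
  have hinf : {n : ℕ | ∃ k, n = p ^ k}.Infinite := by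
    have h1 : Function.Injective fun k : ℕ => p ^ k := Nat.pow_right_injective hp.two_le
    refine (Set.infinite_range_of_injective h1).mono ?_
    rintro _ ⟨k, rfl⟩
    exact ⟨k, rfl⟩
  by_cases hall : ∀ r < N, {n | n % N = r ∧ ∃ k, n = p ^ k}.Finite
  · refine hinf ((Set.Finite.biUnion (Set.finite_lt_nat N) (t := fun r =>
      {n | n % N = r ∧ ∃ k, n = p ^ k}) fun r hr => hall r hr).subset ?_)
    intro n hn
    exact Set.mem_biUnion (Nat.mod_lt n hN : n % N < N) ⟨rfl, hn⟩
  · push Not at hall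
    obtain ⟨r, hr, hr1⟩ := hall
    obtain ⟨M, hM⟩ := ((h r hr).resolve_left hr1).bddAbove
    obtain ⟨n, ⟨hn1, k, rfl⟩, hn2⟩ := hr1.exists_gt (max M N)
    have h1 : ∃ l, p ^ k + N = p ^ l := by
      by_contra hne
      have h2 : p ^ k + N ≤ M := hM ⟨by rw [Nat.add_mod_right]; exact hn1, hne⟩
      have h3 := le_max_left M N
      omega
    obtain ⟨l, hl⟩ := h1
    have h2 : k < l := by
      by_contra hle
      have := Nat.pow_le_pow_right hp.pos (not_lt.mp hle)
      omega
    have h3 : p ^ (k + 1) ≤ p ^ l := Nat.pow_le_pow_right hp.pos h2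
    have h4 := hp.two_le
    have h5 := le_max_right M N
    rw [pow_succ] at h3
    nlinarith

/-- **The theorem of Skolem, Mahler and Lech is false in characteristic `p`.** -/
theorem not_skolem_mahler_lech {p : ℕ} [hp : Fact p.Prime] {K : Type*} [Field K]
    [Algebra (ZMod p) K] {t : K} (ht : Transcendental (ZMod p) t) :
    ∃ (E : LinearRecurrence K) (u : ℕ → K), E.IsSolution u ∧ ¬ ∃ N, 0 < N ∧ ∀ r < N,
      {n | n % N = r ∧ u n = 0}.Finite ∨ {n | n % N = r ∧ u n ≠ 0}.Finite := by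
  have hmem : (fun n : ℕ => (1 + t) ^ n - t ^ n - 1) ∈ Rec K :=
    sub_mem (sub_mem (pow_mem_rec (1 + t)) (pow_mem_rec t)) (one_mem _)
  obtain ⟨E, hE⟩ := mem_rec_iff.mp hmem
  refine ⟨E, _, hE, ?_⟩
  have h1 : ∀ n : ℕ, (1 + t) ^ n - t ^ n - 1 = 0 ↔ ∃ k, n = p ^ k := fun n =>
    Set.ext_iff.mp (lech ht) n
  simp only [h1, ne_eq]
  exact powers_not_periodic hp.out

end Fermat.Agent.Cor.SML
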