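import Fermat.Agent.Corollaries.SML.Dich
import Fermat.Agent.Corollaries.SML.Point

/-!
# The theorem of Skolem, Mahler and Lech

The zeros of a linear recurrence sequence over a field of characteristic zero: up to a finite set
they are finitely many complete residue classes.
-/

set_option autoImplicit false

open Finset

namespace Fermat.Agent.Cor.SML

variable {K : Type*} [Field K] [CharZero K]

/-- The last coefficient is not zero: on every progression `r + m N` there are only finitely many
zeros, or all the values are zero. -/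
theorem exists_dichotomy (E : LinearRecurrence K) (h0 : 0 < E.order)
    (hne : E.coeffs ⟨0, h0⟩ ≠ 0) {u : ℕ → K} (hu : E.IsSolution u) :
    ∃ N, 0 < N ∧ ∀ r : ℕ, {m | u (r + m * N) = 0}.Finite ∨ ∀ m, u (r + m * N) = 0 := by
  classical
  set G : Finset K := Finset.univ.image E.coeffs ∪ Finset.univ.image (fun i : Fin E.order => u i) ∪
    {(E.coeffs ⟨0, h0⟩)⁻¹} with hG
  obtain ⟨p, 𝔪, hp, hp2, hpm, hfin, H⟩ := exists_point G
  set R := Algebra.adjoin ℤ (G : Set K) with hR
  have hc : ∀ i, E.coeffs i ∈ R := fun i => Algebra.subset_adjoin (by simp [hG])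
  have hv : ∀ i : Fin E.order, u i ∈ R := fun i => Algebra.subset_adjoin (by simp [hG])
  have hinv : (E.coeffs ⟨0, h0⟩)⁻¹ ∈ R := Algebra.subset_adjoin (by simp [hG])
  have hN : IsNoetherianRing R := isNoetherianRing_of_fg ⟨G, rfl⟩
  let ER : LinearRecurrence R := ⟨E.order, fun i => ⟨E.coeffs i, hc i⟩⟩
  have hinj : Function.Injective (algebraMap R K) := Subtype.val_injective
  have hunit : IsUnit (ER.coeffs ⟨0, h0⟩) :=
    IsUnit.of_mul_eq_one (⟨_, hinv⟩ : R) (Subtype.ext (mul_inv_cancel₀ hne))
  obtain ⟨N, hN0, h⟩ := dichotomy K hinj ER h0 hunit hp hp2 hpm hfin H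
  let w : ℕ → R := ER.mkSol fun i => ⟨u i, hv i⟩
  have hw : ER.IsSolution w := ER.is_sol_mkSol _
  have hwu : ∀ n, (w n : K) = u n := by
    have h1 : E.IsSolution fun n => (w n : K) := by
      intro n
      have h2 := congrArg (algebraMap R K) (hw n)
      rw [map_sum] at h2
      exact h2
    intro n
    rw [E.eq_mk_of_is_sol_of_eq_init (init := fun i => u i) h1 (fun i => by
      change ((ER.mkSol _ i : R) : K) = u i
      rw [ER.mkSol_eq_init _ i]) n, E.eq_mk_of_is_sol_of_eq_init (init := fun i => u i) hu
      (fun _ => rfl) n]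
  refine ⟨N, hN0, fun r => ?_⟩
  have h3 : ∀ n, w n = 0 ↔ u n = 0 := by
    intro n
    rw [← hwu n]
    exact ⟨fun h => by rw [h]; rfl, fun h => Subtype.ext h⟩
  have h4 := h w hw r
  simp only [h3] at h4
  exact h4

/-- All the recurrences; `{m | u (r + m N) = 0}` is finite or cofinite. -/
theorem exists_finite_or (d : ℕ) : ∀ (E : LinearRecurrence K), E.order = d → ∀ {u : ℕ → K},
    E.IsSolution u → ∃ N, 0 < N ∧ ∀ r : ℕ, {m | u (r + m * N) = 0}.Finite ∨
      {m | u (r + m * N) ≠ 0}.Finite := by
  induction d with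
  | zero =>
    intro E hE u hu
    refine ⟨1, one_pos, fun r => Or.inr ?_⟩
    have h : ∀ n, u n = 0 := by
      intro n
      have h1 := hu n
      have : IsEmpty (Fin E.order) := by rw [hE]; infer_instance
      rw [Finset.univ_eq_empty, Finset.sum_empty, hE, add_zero] at h1
      exact h1
    have h2 : {m | u (r + m * 1) ≠ 0} = ∅ := by
      ext m
      simp [h]
    rw [h2]
    exact Set.finite_empty
  | succ d ih =>
    intro E hE u hu
    obtain ⟨o, c⟩ := E
    simp only at hE
    subst hE
    by_cases h0 : c 0 = 0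
    · obtain ⟨N, hN, h⟩ := ih ⟨d, fun i => c i.succ⟩ rfl (u := fun n => u (n + 1)) (fun n => by
        have h1 := hu n
        change u (n + (d + 1)) = ∑ i : Fin (d + 1), c i * u (n + i) at h1
        rw [Fin.sum_univ_succ, h0, zero_mul, zero_add] at h1
        change u (n + d + 1) = ∑ i : Fin d, c i.succ * u (n + i + 1)
        rw [show n + d + 1 = n + (d + 1) by ring, h1]
        refine Finset.sum_congr rfl fun i _ => ?_
        rw [Fin.val_succ, add_assoc])
      refine ⟨N, hN, fun r => ?_⟩
      rcases r with _ | r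
      · have h1 : ∀ m, u (0 + (m + 1) * N) = u ((N - 1) + m * N + 1) := by
          intro m
          congr 1
          have : (m + 1) * N = m * N + N := by ring
          omega
        have hsub : ∀ P : K → Prop, {m | P (u (0 + m * N))} ⊆
            insert 0 ((fun m => m + 1) '' {m | P (u ((N - 1) + m * N + 1))}) := by
          intro P m hm
          rcases m with _ | m
          · exact Set.mem_insert _ _
          · refine Set.mem_insert_of_mem _ ⟨m, ?_, rfl⟩
            change P (u ((N - 1) + m * N + 1))
            rw [← h1]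
            exact hm
        rcases h (N - 1) with h2 | h2
        · exact Or.inl (((h2.image _).insert 0).subset (hsub fun x => x = 0))
        · exact Or.inr (((h2.image _).insert 0).subset (hsub fun x => x ≠ 0))
      · have h1 : ∀ m, u (r + 1 + m * N) = u (r + m * N + 1) := by
          intro m
          congr 1
          ring
        simp only [h1]
        exact h r
    · obtain ⟨N, hN, h⟩ := exists_dichotomy (⟨d + 1, c⟩ : LinearRecurrence K) (Nat.succ_pos d) h0 hu
      refine ⟨N, hN, fun r => ?_⟩
      rcases h r with h1 | h1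
      · exact Or.inl h1
      · right
        have h2 : {m | u (r + m * N) ≠ 0} = ∅ := by
          ext m
          simp [h1]
        rw [h2]
        exact Set.finite_empty

/-- **The theorem of Skolem, Mahler and Lech.** -/
theorem skolem_mahler_lech (E : LinearRecurrence K) {u : ℕ → K} (hu : E.IsSolution u) :
    ∃ N, 0 < N ∧ ∀ r < N, {n | n % N = r ∧ u n = 0}.Finite ∨ {n | n % N = r ∧ u n ≠ 0}.Finite := by
  obtain ⟨N, hN, h⟩ := exists_finite_or E.order E rfl hu
  refine ⟨N, hN, fun r _ => ?_⟩
  have hsub : ∀ P : K → Prop, {n | n % N = r ∧ P (u n)} ⊆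
      (fun m => r + m * N) '' {m | P (u (r + m * N))} := by
    rintro P n ⟨h1, h2⟩
    have h3 : r + n / N * N = n := by
      rw [← h1, mul_comm]
      exact Nat.mod_add_div n N
    refine ⟨n / N, ?_, h3⟩
    change P (u (r + n / N * N))
    rw [h3]
    exact h2
  rcases h r with h1 | h1
  · exact Or.inl ((h1.image _).subset (hsub fun x => x = 0))
  · exact Or.inr ((h1.image _).subset (hsub fun x => x ≠ 0))

/-- Up to a finite set the zeros are the numbers in certain residue classes modulo `N`. -/
theorem finite_symmDiff (E : LinearRecurrence K) {u : ℕ → K} (hu : E.IsSolution u) :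
    ∃ (N : ℕ) (A : Finset ℕ), 0 < N ∧ (symmDiff {n | u n = 0} {n | n % N ∈ A}).Finite := by
  classical
  obtain ⟨N, hN, h⟩ := skolem_mahler_lech E hu
  refine ⟨N, (range N).filter fun r => {n | n % N = r ∧ u n ≠ 0}.Finite, hN, ?_⟩
  refine (Set.Finite.biUnion (range N).finite_toSet (t := fun r =>
    if {n | n % N = r ∧ u n ≠ 0}.Finite then {n | n % N = r ∧ u n ≠ 0} else
      {n | n % N = r ∧ u n = 0}) fun r hr => ?_).subset ?_
  · split_ifs with h1
    · exact h1
    · exact (h r (Finset.mem_range.mp hr)).resolve_right h1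
  · intro n hn
    have hr : n % N ∈ range N := Finset.mem_range.mpr (Nat.mod_lt n hN)
    refine Set.mem_biUnion (Finset.mem_coe.mpr hr) ?_
    rcases hn with ⟨h1, h2⟩ | ⟨h1, h2⟩
    · have h3 : ¬ {m | m % N = n % N ∧ u m ≠ 0}.Finite := fun h4 =>
        h2 (Finset.mem_filter.mpr ⟨hr, h4⟩)
      rw [if_neg h3]
      exact ⟨rfl, h1⟩
    · have h3 := (Finset.mem_filter.mp (show n % N ∈ (range N).filter _ from h1)).2
      rw [if_pos h3]
      exact ⟨rfl, h2⟩

/-- A linear recurrence sequence with infinitely many zeros vanishes on an arithmetic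
progression. -/
theorem exists_progression (E : LinearRecurrence K) {u : ℕ → K} (hu : E.IsSolution u)
    (hinf : {n | u n = 0}.Infinite) : ∃ N r, 0 < N ∧ ∀ m, u (r + m * N) = 0 := by
  obtain ⟨N, hN, h⟩ := exists_finite_or E.order E rfl hu
  by_cases hall : ∀ r < N, {m | u (r + m * N) = 0}.Finite
  · exfalso
    apply hinf
    refine (Set.Finite.biUnion (Set.finite_lt_nat N) (t := fun r =>
      (fun m => r + m * N) '' {m | u (r + m * N) = 0}) fun r hr => (hall r hr).image _).subset ?_
    intro n hn
    refine Set.mem_biUnion (Nat.mod_lt n hN : n % N < N) ⟨n / N, ?_, ?_⟩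
    · change u (n % N + n / N * N) = 0
      rw [mul_comm, Nat.mod_add_div]
      exact hn
    · change n % N + n / N * N = n
      rw [mul_comm]
      exact Nat.mod_add_div n N
  · push Not at hall
    obtain ⟨r, -, hr⟩ := hall
    obtain ⟨M, hM⟩ := ((h r).resolve_left hr).bddAbove
    refine ⟨N, r + (M + 1) * N, hN, fun m => ?_⟩
    by_contra h1
    have h2 : M + 1 + m ≤ M := hM (by
      change u (r + (M + 1 + m) * N) ≠ 0
      rwa [add_mul, ← add_assoc])
    omega

end Fermat.Agent.Cor.SML
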