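import Fermat.Agent.Corollaries.SML.Dyn

/-!
# Sums of powers

`K` is a field of characteristic zero, `a_1, …, a_d ∈ K` are not zero, `a_i ^ k ≠ a_j ^ k` for all
`i ≠ j` and `k > 0` (no quotient is a root of unity), not all the `c_i` are zero.

* `finite_zeros_sum` : **`c_1 a_1 ^ n + ⋯ + c_d a_d ^ n = 0` for finitely many `n` only;**
* `finite_values_sum` : if no `a_i` is a root of unity, every value is taken finitely many times.
-/

set_option autoImplicit false

open Finset

namespace Fermat.Agent.Cor.SML

variable {K : Type*} [Field K]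

theorem pow_mem_rec (a : K) : (fun n : ℕ => a ^ n) ∈ Rec K := by
  refine ⟨Submodule.span K {fun n : ℕ => a ^ n}, Submodule.fg_span (Set.finite_singleton _), ?_,
    Submodule.mem_span_singleton_self _⟩
  rw [Submodule.map_span, Set.image_singleton, Submodule.span_le, Set.singleton_subset_iff]
  refine Submodule.mem_span_singleton.mpr ⟨a, ?_⟩
  funext n
  change a * a ^ n = a ^ (n + 1)
  rw [pow_succ']

theorem sum_mem_rec {d : ℕ} (a c : Fin d → K) : (fun n : ℕ => ∑ i, c i * a i ^ n) ∈ Rec K := by
  have h : (fun n : ℕ => ∑ i, c i * a i ^ n) = ∑ i, c i • fun n : ℕ => a i ^ n := by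
    funext n
    rw [Finset.sum_apply]
    rfl
  rw [h]
  exact sum_mem fun i _ => Subalgebra.smul_mem _ (pow_mem_rec _) _

variable [CharZero K]

/-- **A sum of powers without roots of unity among the quotients of the bases has finitely many
zeros.** -/
theorem finite_zeros_sum {d : ℕ} {a c : Fin d → K} (ha : ∀ i, a i ≠ 0)
    (hne : ∀ i j, i ≠ j → ∀ k : ℕ, 0 < k → a i ^ k ≠ a j ^ k) (hc : c ≠ 0) :
    {n : ℕ | ∑ i, c i * a i ^ n = 0}.Finite := by
  by_contra hinf
  obtain ⟨E, hE⟩ := mem_rec_iff.mp (sum_mem_rec a c)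
  obtain ⟨N, r, hN, h⟩ := exists_progression E hE hinf
  apply hc
  have h1 : (fun i => c i * a i ^ r) = 0 := by
    refine Matrix.eq_zero_of_forall_pow_sum_mul_pow_eq_zero (f := fun i => a i ^ N) ?_ ?_
    · intro i j hij
      by_contra hne'
      exact hne i j hne' N hN hij
    · intro m
      have h2 := h m
      rw [← h2]
      refine Finset.sum_congr rfl fun i _ => ?_
      rw [mul_assoc, ← pow_mul, ← pow_add, mul_comm N]
  funext i
  have h2 := congrFun h1 i
  exact (mul_eq_zero.mp h2).resolve_right (pow_ne_zero _ (ha i))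

/-- **If no `a_i` is a root of unity, every value is taken finitely many times.** -/
theorem finite_values_sum {d : ℕ} {a c : Fin d → K} (ha : ∀ i, a i ≠ 0)
    (hne : ∀ i j, i ≠ j → ∀ k : ℕ, 0 < k → a i ^ k ≠ a j ^ k)
    (hroot : ∀ i, ∀ k : ℕ, 0 < k → a i ^ k ≠ 1) (hc : c ≠ 0) (b : K) :
    {n : ℕ | ∑ i, c i * a i ^ n = b}.Finite := by
  have h := finite_zeros_sum (a := Fin.cons 1 a) (c := Fin.cons (-b) c)
    (fun i => by
      refine Fin.cases ?_ (fun i => ?_) i
      · rw [Fin.cons_zero]
        exact one_ne_zero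
      · rw [Fin.cons_succ]
        exact ha i)
    (fun i j => by
      refine Fin.cases ?_ (fun i => ?_) i
      · refine Fin.cases ?_ (fun j => ?_) j
        · exact fun h => absurd rfl h
        · intro _ k hk
          rw [Fin.cons_zero, Fin.cons_succ, one_pow]
          exact (hroot j k hk).symm
      · refine Fin.cases ?_ (fun j => ?_) j
        · intro _ k hk
          rw [Fin.cons_zero, Fin.cons_succ, one_pow]
          exact hroot i k hk
        · intro hij k hk
          rw [Fin.cons_succ, Fin.cons_succ]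
          exact hne i j (fun h => hij (by rw [h])) k hk)
    (fun h0 => hc (by
      funext i
      have := congrFun h0 i.succ
      rwa [Fin.cons_succ] at this))
  refine h.subset fun n hn => ?_
  change ∑ i, (Fin.cons (-b) c : Fin (d + 1) → K) i * (Fin.cons 1 a : Fin (d + 1) → K) i ^ n = 0
  rw [Fin.sum_univ_succ]
  simp only [Fin.cons_zero, Fin.cons_succ, one_pow, mul_one]
  rw [show ∑ i, c i * a i ^ n = b from hn, neg_add_cancel]

end Fermat.Agent.Cor.SML
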